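/-
S29 / M4a-TOP (helper391) — `exists_eigen_parHom` (interface `M4a` of `SkeletonM.lean`, exact
statement) from the output of helper201's E2 layer (`H201.exists_eigen_parabolicHom`, plus the
torsion clause which is needed for `p = 2, 3`).

* `M4aTop_E2Output`            : the E2 output as a `Prop`.
* `M4aTop_exists_eigen_parHom` : `M4aTop_E2Output → ` conclusion of `exists_eigen_parHom`.
-/
import Fermat.Agent.S29.M4a.Fac

set_option autoImplicit false

noncomputable section

namespace Fermat.Agent.S29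

open CongruenceSubgroup Matrix.SpecialLinearGroup ModularCurve.Period
open scoped MatrixGroups

/-- Output of the E2 layer in helper201's shape (`H201.exists_eigen_parabolicHom`), together with
the torsion clause: a nonzero parabolic character `χ : Γ₀(N) → F`, trivial on elements of finite
order, with `T_ℓ χ = ψ(a_ℓ) χ` for every prime `ℓ ∤ N`. -/
def M4aTop_E2Output (N : ℕ) (g : CuspForm (Gamma0 N) 2) (F : Type) [Field F]
    (ψ : integralClosure ℤ ℂ →+* F) : Prop :=
  ∃ χ : Additive (Gamma0 N) →+ F, χ ≠ 0 ∧ IsParabolicHom (Gamma0 N) χ ∧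
    (∀ (γ : Gamma0 N) (n : ℕ), 0 < n → γ ^ n = 1 → χ (Additive.ofMul γ) = 0) ∧
    ∀ (ℓ : ℕ) [Fact ℓ.Prime] (hℓN : ¬ ℓ ∣ N),
      ∃ a : integralClosure ℤ ℂ, (a : ℂ) = ModularFormClass.qCoeff g ℓ ∧
        H201.heckeHom ℓ hℓN F χ = (AddMonoidHom.mulLeft (ψ a)).comp χ

theorem M4aTop_fg_SL2Z : Group.FG SL(2, ℤ) :=
  Group.fg_iff.mpr ⟨{ModularGroup.S, ModularGroup.T}, SpecialLinearGroup.SL2Z_generators,
    Set.toFinite _⟩

theorem M4aTop_fg_Gamma0 (N : ℕ) [NeZero N] : Group.FG (Gamma0 N) := by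
  have := M4aTop_fg_SL2Z
  infer_instance

/-- The values of an additive character of a finitely generated group lie in the span of the values
on a finite generating set. -/
theorem M4aTop_mem_span {G : Type*} [Group G] {R M : Type*} [Ring R] [AddCommGroup M]
    [Module R M] (χ : Additive G →+ M) (S : Set G) (hS : Subgroup.closure S = ⊤) (γ : G) :
    χ (Additive.ofMul γ) ∈ Submodule.span R ((fun x : G => χ (Additive.ofMul x)) '' S) := by
  have hγ : γ ∈ Subgroup.closure S := hS ▸ Subgroup.mem_top γ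
  induction hγ using Subgroup.closure_induction with
  | mem x hx => exact Submodule.subset_span ⟨x, hx, rfl⟩
  | one => rw [ofMul_one, map_zero]; exact Submodule.zero_mem _
  | mul x y _ _ hx hy => rw [ofMul_mul, map_add]; exact Submodule.add_mem _ hx hy
  | inv x _ hx => rw [ofMul_inv, map_neg]; exact Submodule.neg_mem _ hx

/-- **M4a-TOP.**  The conclusion of `exists_eigen_parHom` (`SkeletonM.lean`) from the output of the
E2 layer. -/
theorem M4aTop_exists_eigen_parHom (N : ℕ) [NeZero N]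
    {g : CuspForm (CongruenceSubgroup.Gamma0 N) 2} {p : ℕ} [Fact p.Prime] {F : Type} [Field F]
    [Algebra (ZMod p) F]
    (ψ : integralClosure ℤ ℂ →+* F) (a : ℕ → integralClosure ℤ ℂ)
    (ha : ∀ ℓ : ℕ, ℓ.Prime → ¬ ℓ ∣ N →
      ((a ℓ : integralClosure ℤ ℂ) : ℂ) = ModularFormClass.qCoeff g ℓ)
    (hE2 : M4aTop_E2Output N g F ψ) :
    ∃ (n : ℕ) (w : Fin n → F) (c : Fin n → G0 N → ZMod p),
      LinearIndependent (ZMod p) w ∧ (∀ j, IsParHom (c j)) ∧ (∃ j, c j ≠ 0) ∧
      ∀ ℓ : ℕ, ℓ.Prime → ¬ ℓ ∣ N * p → ∀ γ : G0 N,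
        ∑ j, w j * algebraMap (ZMod p) F (heckeCoh N ℓ (c j) γ)
          = ψ (a ℓ) * ∑ j, w j * algebraMap (ZMod p) F (c j γ) := by
  obtain ⟨χ, hχ0, hpar, htor, hecke⟩ := hE2
  -- a finite generating set
  obtain ⟨S, hS, hSfin⟩ := Group.fg_iff.mp (M4aTop_fg_Gamma0 N)
  set W : Submodule (ZMod p) F :=
    Submodule.span (ZMod p) ((fun x : Gamma0 N => χ (Additive.ofMul x)) '' S) with hW
  have hmem : ∀ γ : Gamma0 N, χ (Additive.ofMul γ) ∈ W := fun γ => M4aTop_mem_span χ S hS γ
  have : Module.Finite (ZMod p) W := Module.Finite.span_of_finite (ZMod p) (hSfin.image _)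
  let b := Module.finBasis (ZMod p) W
  -- the coordinates
  let X : G0 N → W := fun γ => ⟨χ (Additive.ofMul γ), hmem γ⟩
  have hXmul : ∀ γ γ' : G0 N, X (γ * γ') = X γ + X γ' := fun γ γ' =>
    Subtype.ext (by simp only [X, ofMul_mul, map_add, Submodule.coe_add])
  have hX0 : ∀ γ : G0 N, χ (Additive.ofMul γ) = 0 → X γ = 0 := fun γ h => Subtype.ext h
  have hsum : ∀ γ : G0 N, χ (Additive.ofMul γ)
      = ∑ j, (b j : F) * algebraMap (ZMod p) F (b.repr (X γ) j) := by
    intro γ
    have h1 := congrArg (fun x : W => (x : F)) (b.sum_repr (X γ))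
    simp only [Submodule.coe_sum, Submodule.coe_smul] at h1
    rw [show χ (Additive.ofMul γ) = ((X γ : W) : F) from rfl, ← h1]
    refine Finset.sum_congr rfl fun j _ => ?_
    rw [Algebra.smul_def, mul_comm]
  refine ⟨Module.finrank (ZMod p) W, fun j => (b j : F), fun j γ => b.repr (X γ) j, ?_, ?_, ?_, ?_⟩
  · exact b.linearIndependent.map' W.subtype (Submodule.ker_subtype W)
  · intro j
    refine ⟨fun γ γ' => ?_, fun γ hγ => ?_, fun γ n hn hγ => ?_⟩
    · show b.repr (X (γ * γ')) j = b.repr (X γ) j + b.repr (X γ') j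
      rw [hXmul, map_add, Finsupp.add_apply]
    · show b.repr (X γ) j = 0
      have h4 : (((γ : Gamma0 N) : SL(2, ℤ)) : Matrix (Fin 2) (Fin 2) ℤ).trace ^ 2 = 4 := by
        have h5 : G0.mat γ = (((γ : Gamma0 N) : SL(2, ℤ)) : Matrix (Fin 2) (Fin 2) ℤ) := rfl
        rw [h5] at hγ
        rcases hγ with h | h <;> rw [h] <;> norm_num
      rw [hX0 γ (hpar γ h4), map_zero, Finsupp.zero_apply]
    · show b.repr (X γ) j = 0
      rw [hX0 γ (htor γ n hn hγ), map_zero, Finsupp.zero_apply]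
  · by_contra hcon
    rw [not_exists] at hcon
    replace hcon : ∀ j, (fun γ : G0 N => b.repr (X γ) j) = 0 := fun j => not_not.mp (hcon j)
    apply hχ0
    ext γ
    have hz : X (Additive.toMul γ) = 0 := by
      apply b.repr.injective
      ext j
      rw [map_zero, Finsupp.zero_apply]
      exact congrFun (hcon j) (Additive.toMul γ)
    show χ (Additive.ofMul (Additive.toMul γ)) = 0
    exact congrArg (fun x : W => (x : F)) hz
  · intro ℓ hℓ hℓNp γ
    have : Fact ℓ.Prime := ⟨hℓ⟩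
    have hℓN : ¬ ℓ ∣ N := fun h => hℓNp (Dvd.dvd.mul_right h p)
    obtain ⟨a', ha', hT⟩ := hecke ℓ hℓN
    have haa : a' = a ℓ := Subtype.ext (by rw [ha', ha ℓ hℓ hℓN])
    subst haa
    have hTγ : ∑ x : OnePoint (ZMod ℓ), χ (Additive.ofMul (H201.trf hℓN γ x))
        = ψ (a ℓ) * χ (Additive.ofMul γ) := DFunLike.congr_fun hT (Additive.ofMul γ)
    rw [← hsum γ, ← hTγ]
    -- expand the Hecke operator on coordinates
    have hco : ∀ j, heckeCoh N ℓ (fun γ => b.repr (X γ) j) γ
        = ∑ x : OnePoint (ZMod ℓ), b.repr (X (H201.trf hℓN γ x)) j := fun j =>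
      M4aTop_heckeCoh_eq_sum_trf hℓN _ γ
    simp only [hco, map_sum, Finset.mul_sum]
    rw [Finset.sum_comm]
    refine Finset.sum_congr rfl fun x _ => ?_
    exact (hsum (H201.trf hℓN γ x)).symm

end Fermat.Agent.S29
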